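import Fermat.Agent.ZTS.Abs
import Fermat.Agent.PIC.Main
import Fermat.Agent.Cusps.GenusFinal
import Fermat.Agent.FlatJ.JFlat

/-!
# Specialization is surjective on torsion prime to the residue characteristic
-/

set_option autoImplicit false
set_option linter.unusedSectionVars false

noncomputable section

namespace Fermat.Agent.ZTS

open AlgebraicCurve ModularCurve CongruenceSubgroup
open Fermat.Agent.HeckeHom Fermat.Agent.Tate Fermat.Agent.HeckeRed Fermat.Agent.FunField
  Fermat.Agent.ModDeg Fermat.Agent.ModPoly Fermat.Agent.Deuring Fermat.Agent.TorsCmp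
  Fermat.Agent.GalJ Fermat.Agent.PIC Fermat.Agent.Igusa

variable {N : ℕ} [NeZero N] {p : ℕ} [hp : Fact p.Prime]
  (A : ValuationSubring (AlgebraicClosure ℚ)) {κ : Type} [Field κ] [IsAlgClosed κ] [CharP κ p]
  [PerfectRing κ p]
  (π : A →+* κ) [IsLocalHom π] (hπ : Function.Surjective π) (hN : (N : κ) ≠ 0)
  {r : Place (AlgebraicClosure ℚ) (laurentBaseChange (AlgebraicClosure ℚ)
    (modularFunctionFieldFull N)) → Place κ (modularFunctionFieldFullC κ N)}
  (hr : IsReduction (dat A π hπ N hN) r) {S : Set ℕ}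

/-- Injectivity of specialization on torsion prime to `p`. -/
theorem spHom_tors_inj {m : ℕ} (hm : (m : κ) ≠ 0) (x : JZero N) (hx : m • x = 0)
    (hsp : spHom hr x = 0) : x = 0 := by
  have h1 : RRLarge (AlgebraicClosure ℚ) (modularFunctionFieldBar N)
      (genusFF (AlgebraicClosure ℚ) (modularFunctionFieldFullC (AlgebraicClosure ℚ) N)) :=
    Cusps.rrLarge_bar_gen N _ (modularFunctionFieldBar_eq N)
  have h2 : RRLarge κ (modularFunctionFieldFullC κ N)
      (genusFF (AlgebraicClosure ℚ) (modularFunctionFieldFullC (AlgebraicClosure ℚ) N)) := by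
    rw [← Cusps.genusFF_eq_Qb A π hπ N hN]
    exact Cusps.rrLarge_bar_gen N _ rfl
  exact spHom_torsion hr h1 h2 hm x hx hsp

omit hp in
theorem finite_tors_JZero {l : ℕ} (hl : 0 < l) : {x : JZero N | l • x = 0}.Finite := by
  have h := FlatJ.finite_torsionBy (K := AlgebraicClosure ℚ) (F := modularFunctionFieldBar N) hl
  have : Finite {x : JZero N | l • x = 0} := by
    refine Finite.of_injective (fun x => (⟨x.1, ?_⟩ : Submodule.torsionBy ℤ
      (Pic0 (AlgebraicClosure ℚ) (modularFunctionFieldBar N)) (l : ℤ))) ?_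
    · rw [Submodule.mem_torsionBy_iff, natCast_zsmul]
      exact x.2
    · intro x y hxy
      exact Subtype.ext (congrArg Subtype.val hxy)
  exact Set.toFinite _

theorem natCast_ne_zero_of_prime {l : ℕ} (hl : l.Prime) (hlp : l ≠ p) (k : ℕ) :
    ((l ^ k : ℕ) : κ) ≠ 0 := by
  rw [Nat.cast_pow]
  refine pow_ne_zero k fun h => hlp ?_
  rw [CharP.cast_eq_zero_iff κ p] at h
  exact ((Nat.prime_dvd_prime_iff_eq hp.out hl).mp h).symm

include hr in
/-- **Specialization is surjective on the `l`-power torsion, `l ≠ p`.** -/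
theorem exists_tors_lift (hA : A.LiesOverPrime p)
    (hfr : ∀ σ : AlgebraicClosure ℚ ≃ₐ[ℚ] AlgebraicClosure ℚ, A.IsFrobeniusAt σ p →
      ∃ σA : A →+* A, (∀ a : A, σ a = σA a) ∧
      ∀ a : A, frobenius κ p (π a) = π (σA a))
    {l : ℕ} (hl : l.Prime) (hlp : l ≠ p) (n : ℕ) (c : Pic0 κ (modularFunctionFieldFullC κ N))
    (hc : l ^ n • c = 0) : ∃ y : JZero N, l ^ n • y = 0 ∧ spHom hr y = c := by
  obtain ⟨y, hy⟩ := spHom_surjective hr c
  change JZero N at y
  obtain ⟨E, hE, hEy⟩ := level_JZero N y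
  have hgal : IsGalois ℚ (AlgebraicClosure ℚ) :=
    have : Normal ℚ (AlgebraicClosure ℚ) := IsAlgClosure.normal ℚ (AlgebraicClosure ℚ)
    {}
  obtain ⟨σ₀, hσ₀⟩ := Fermat.Agent.Frob.exists_isFrobeniusAt hp.out hA
  obtain ⟨m, hm, hmE⟩ := exists_pow_fixes E σ₀
  have hσy : (σ₀ ^ m) • y = y := hEy _ hmE
  -- Frobenius on the specialization
  obtain ⟨σA, hσ1, hσ2⟩ := hfr σ₀ hσ₀
  have hsp : ∀ x : JZero N, spHom hr (σ₀ • x) = frobC κ N p • spHom hr x := fun x =>
    spHom_galois A π hπ N hN hr σ₀ (frobC κ N p) σA _ hσ1 hσ2 (coe_frobAut_smul _ (full_stable N) p)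
      x
  have hsp' : ∀ (j : ℕ) (x : JZero N), spHom hr ((σ₀ ^ j) • x) = frobC κ N p ^ j • spHom hr x := by
    intro j
    induction j with
    | zero =>
      intro x
      rw [pow_zero, pow_zero]
      exact (congrArg (spHom hr) (one_smul _ x)).trans (one_smul _ _).symm
    | succ j ih =>
      intro x
      rw [pow_succ', pow_succ', mul_smul (frobC κ N p)]
      have h1 : (σ₀ * σ₀ ^ j) • x = σ₀ • ((σ₀ ^ j) • x) := mul_smul σ₀ (σ₀ ^ j) x
      exact (congrArg (spHom hr) h1).trans ((hsp _).trans (congrArg _ (ih x)))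
  have hlF : Fact l.Prime := ⟨hl⟩
  have key := exists_lift (J := JZero N) (C := Pic0 κ (modularFunctionFieldFullC κ N))
    (spHom hr) (DistribSMul.toAddMonoidHom (JZero N) (σ₀ ^ m))
    (DistribSMul.toAddMonoidHom (Pic0 κ (modularFunctionFieldFullC κ N)) (frobC κ N p ^ m))
    (fun x => hsp' m x) hl (fun x => exists_p_smul (L := AlgebraicClosure ℚ) iotaQbar N l x)
    (finite_tors_JZero hl.pos)
    (fun k x hx hx0 => spHom_tors_inj A π hπ hN hr (natCast_ne_zero_of_prime hl hlp k) x hx hx0)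
    (finite_fixedC (κ := κ) (N := N) (p := p) m hm) (y₀ := y) hσy (n := n)
    (by rw [hy]; exact hc)
  obtain ⟨z, hz1, hz2⟩ := key
  exact ⟨z, hz1, hz2.trans hy⟩

include hr in
/-- Relations pass from the special fibre to lifts of prime-to-`p` torsion. -/
theorem actJ_eq_zero_of_actC (hpS : p ∈ S) {l : ℕ} (hl : l.Prime) (hlp : l ≠ p) {n : ℕ}
    {y : JZero N} (hy : l ^ n • y = 0) {a : FreeAlgebra ℤ (Idx N S)}
    (ha : actC κ N S a (spHom hr y) = 0) : actJ N S a y = 0 := by
  refine spHom_tors_inj A π hπ hN hr (natCast_ne_zero_of_prime hl hlp n) _ ?_ ?_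
  · have h := map_nsmul (actJ N S a) (l ^ n) y
    rw [hy, map_zero] at h
    exact h.symm
  · rw [spHom_act A π hπ hN hr hpS a y]
    exact ha

include hr in
/-- Eigenvectors for Hecke operators pass to lifts of prime-to-`p` torsion. -/
theorem heckeJ_eigen_of_heckeC {l : ℕ} (hl : l.Prime) (hlp : l ≠ p) {n : ℕ}
    {y : JZero N} (hy : l ^ n • y = 0) (q : ℕ) [hq : Fact q.Prime] (hqp : q ≠ p) {b : ℤ}
    (hb : heckeC κ N q (spHom hr y) = b • spHom hr y) :
    heckeOperatorBar N ⟨q, hq.out⟩ y = b • y := by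
  have hqκ : ((N * q : ℕ) : κ) ≠ 0 := by
    rw [Nat.cast_mul]
    refine mul_ne_zero hN fun h => hqp ?_
    rw [CharP.cast_eq_zero_iff κ p] at h
    exact ((Nat.prime_dvd_prime_iff_eq hp.out hq.out).mp h).symm
  rw [← sub_eq_zero]
  refine spHom_tors_inj A π hπ hN hr (natCast_ne_zero_of_prime hl hlp n) _ ?_ ?_
  · have h := map_nsmul (heckeOperatorBar N ⟨q, hq.out⟩) (l ^ n) y
    rw [hy, map_zero] at h
    have h2 : l ^ n • (b • y) = 0 := by rw [smul_comm (l ^ n) b y, hy, smul_zero]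
    refine (nsmul_sub _ _ _).trans ?_
    rw [h2, sub_zero]
    exact h.symm
  · have h1 : spHom hr (heckeOperatorBar N ⟨q, hq.out⟩ y) = heckeC κ N q (spHom hr y) :=
      (congrArg (spHom hr) (heckeOperatorBar_apply N _ y)).trans
        (spHom_hecke A π hπ N hN hr q hqκ y)
    refine (map_sub (spHom hr) _ _).trans ?_
    rw [sub_eq_zero]
    refine h1.trans (hb.trans ?_)
    exact (map_zsmul (spHom hr) b y).symm

end Fermat.Agent.ZTS
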