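import Mathlib

/-!
# Lifting torsion along a specialization map: abstract argument
-/

set_option autoImplicit false

namespace Fermat.Agent.ZTS

/-- An endomorphism with finite kernel of an `l`-divisible `l`-power torsion group with finite
`l`-torsion is surjective. -/
theorem surjective_of_finite_ker {D : Type*} [AddCommGroup D] {l : ℕ}
    (hdiv : ∀ x : D, ∃ y : D, l • y = x) (htors : ∀ x : D, ∃ k : ℕ, l ^ k • x = 0)
    (hfin : {x : D | l • x = 0}.Finite) (f : D →+ D) [Finite f.ker] :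
    Function.Surjective f := by
  -- multiplication by `l`
  let m : D →+ D := nsmulAddMonoidHom l
  have hm : ∀ x, m x = l • x := fun _ => rfl
  have hms : Function.Surjective m := hdiv
  have hfinm : Finite m.ker := hfin.to_subtype
  let H' : AddSubgroup D := f.ker.comap m
  have hH'1 : ∀ x : D, x ∈ H' ↔ f (l • x) = 0 := fun x => Iff.rfl
  have hH'2 : ∀ x : D, x ∈ H' ↔ f x ∈ m.ker := fun x => by
    rw [hH'1, AddMonoidHom.mem_ker, hm, map_nsmul]
  -- `m : H' → ker f` surjective with kernel `ker m`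
  let a : H' →+ f.ker := (m.comp H'.subtype).codRestrict f.ker (fun x => x.2)
  have hasurj : Function.Surjective a := by
    rintro ⟨x, hx⟩
    obtain ⟨y, hy⟩ := hms x
    exact ⟨⟨y, by show m y ∈ f.ker; rw [hy]; exact hx⟩, Subtype.ext hy⟩
  let b : H' →+ m.ker := (f.comp H'.subtype).codRestrict m.ker (fun x => (hH'2 x.1).mp x.2)
  have hcard_a : Nat.card a.ker * Nat.card f.ker = Nat.card H' := by
    rw [← AddSubgroup.card_mul_index a.ker, AddSubgroup.index_ker,
      AddMonoidHom.range_eq_top.mpr hasurj]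
    congr 1
    exact (Nat.card_congr (AddSubgroup.topEquiv (G := f.ker)).toEquiv).symm
  have hcard_b : Nat.card b.ker * Nat.card b.range = Nat.card H' := by
    rw [← AddSubgroup.card_mul_index b.ker, AddSubgroup.index_ker]
  have hka : Nat.card a.ker = Nat.card m.ker := by
    refine Nat.card_congr ⟨fun x => ⟨x.1.1, congrArg Subtype.val x.2⟩, fun x =>
      ⟨⟨x.1, ?_⟩, Subtype.ext x.2⟩, fun _ => rfl, fun _ => rfl⟩
    rw [hH'1]
    have : l • x.1 = 0 := x.2
    rw [this, map_zero]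
  have hkb : Nat.card b.ker = Nat.card f.ker := by
    refine Nat.card_congr ⟨fun x => ⟨x.1.1, congrArg Subtype.val x.2⟩, fun x =>
      ⟨⟨x.1, ?_⟩, Subtype.ext x.2⟩, fun _ => rfl, fun _ => rfl⟩
    rw [hH'1, map_nsmul]
    have : f x.1 = 0 := x.2
    rw [this, smul_zero]
  have hcard : Nat.card b.range = Nat.card m.ker := by
    have h1 : Nat.card f.ker ≠ 0 := Nat.card_pos.ne'
    have h2 := hcard_a.trans hcard_b.symm
    rw [hka, hkb, mul_comm] at h2
    exact (Nat.eq_of_mul_eq_mul_left (Nat.pos_of_ne_zero h1) h2).symm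
  have hb : b.range = ⊤ := AddSubgroup.eq_top_of_card_eq _ hcard
  have hbs : Function.Surjective b := AddMonoidHom.range_eq_top.mp hb
  have hl : ∀ x : D, l • x = 0 → x ∈ f.range := by
    intro x hx
    obtain ⟨y, hy⟩ := hbs ⟨x, hx⟩
    exact ⟨y.1, congrArg Subtype.val hy⟩
  have hall : ∀ (k : ℕ) (x : D), l ^ k • x = 0 → x ∈ f.range := by
    intro k
    induction k with
    | zero =>
      intro x hx
      rw [pow_zero, one_smul] at hx
      rw [hx]
      exact zero_mem _
    | succ k ih =>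
      intro x hx
      have h1 : l • x ∈ f.range := ih (l • x) (by rw [← mul_smul, ← pow_succ]; exact hx)
      obtain ⟨z, hz⟩ := h1
      obtain ⟨w, hw⟩ := hdiv z
      have h2 : l • (x - f w) = 0 := by
        rw [smul_sub, ← map_nsmul, hw, hz, sub_self]
      have h3 := add_mem (hl _ h2) (⟨w, rfl⟩ : f w ∈ f.range)
      rwa [sub_add_cancel] at h3
  intro x
  obtain ⟨k, hk⟩ := htors x
  exact hall k x hk

/-- the subgroup of elements of `l`-power order -/
def powTors (J : Type*) [AddCommGroup J] (l : ℕ) : AddSubgroup J where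
  carrier := {x | ∃ k : ℕ, l ^ k • x = 0}
  zero_mem' := ⟨0, smul_zero _⟩
  add_mem' := by
    rintro x y ⟨k, hk⟩ ⟨j, hj⟩
    refine ⟨k + j, ?_⟩
    rw [smul_add, pow_add, mul_comm, mul_smul, hk, smul_zero, mul_comm, mul_smul, hj, smul_zero,
      add_zero]
  neg_mem' := by
    rintro x ⟨k, hk⟩
    exact ⟨k, by rw [smul_neg, hk, neg_zero]⟩

theorem mem_powTors {J : Type*} [AddCommGroup J] {l : ℕ} {x : J} :
    x ∈ powTors J l ↔ ∃ k : ℕ, l ^ k • x = 0 := Iff.rfl

/-- **Abstract lifting of torsion** along a map `sp` compatible with endomorphisms `φ`, `ψ`. -/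
theorem exists_lift {J C : Type*} [AddCommGroup J] [AddCommGroup C] (sp : J →+ C) (φ : J →+ J)
    (ψ : C →+ C) (hsp : ∀ x, sp (φ x) = ψ (sp x)) {l : ℕ} (hl : l.Prime)
    (hdiv : ∀ x : J, ∃ y : J, l • y = x) (hfin : {x : J | l • x = 0}.Finite)
    (hinj : ∀ (k : ℕ) (x : J), l ^ k • x = 0 → sp x = 0 → x = 0)
    (hfix : {c : C | ψ c = c}.Finite) {y₀ : J} (hy₀ : φ y₀ = y₀) {n : ℕ}
    (hn : l ^ n • sp y₀ = 0) : ∃ y : J, l ^ n • y = 0 ∧ sp y = sp y₀ := by
  -- the endomorphism `φ - 1` of the `l`-power torsion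
  have hφD : ∀ x ∈ powTors J l, φ x - x ∈ powTors J l := by
    rintro x ⟨k, hk⟩
    exact ⟨k, by rw [smul_sub, ← map_nsmul, hk, map_zero, sub_zero]⟩
  let f : powTors J l →+ powTors J l :=
    ((φ - AddMonoidHom.id J).comp (powTors J l).subtype).codRestrict (powTors J l)
      (fun x => hφD x.1 x.2)
  have hf : ∀ x : powTors J l, ((f x : powTors J l) : J) = φ x.1 - x.1 := fun _ => rfl
  have hkerfin : Finite f.ker := by
    have : Finite {c : C | ψ c = c} := hfix.to_subtype
    refine Finite.of_injective (fun x : f.ker => (⟨sp x.1.1, ?_⟩ : {c : C | ψ c = c})) ?_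
    · have h1 : φ x.1.1 - x.1.1 = 0 := congrArg Subtype.val x.2
      show ψ (sp x.1.1) = sp x.1.1
      rw [← hsp, sub_eq_zero.mp h1]
    · intro x y hxy
      have h1 : sp x.1.1 = sp y.1.1 := congrArg Subtype.val hxy
      apply Subtype.ext
      apply Subtype.ext
      obtain ⟨k, hk⟩ := sub_mem x.1.2 y.1.2
      exact sub_eq_zero.mp (hinj k _ hk (by rw [map_sub, h1, sub_self]))
  have hfs : Function.Surjective f := by
    refine surjective_of_finite_ker (l := l) ?_ ?_ ?_ f
    · rintro ⟨x, k, hk⟩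
      obtain ⟨y, hy⟩ := hdiv x
      exact ⟨⟨y, k + 1, by rw [pow_succ, mul_smul, hy, hk]⟩, Subtype.ext hy⟩
    · rintro ⟨x, k, hk⟩
      exact ⟨k, Subtype.ext hk⟩
    · refine Set.Finite.of_finite_image (f := Subtype.val) (hfin.subset ?_)
        Subtype.val_injective.injOn
      rintro _ ⟨x, hx, rfl⟩
      exact congrArg Subtype.val (show l • x = 0 from hx)
  -- the fixed subgroup
  let Fx : AddSubgroup C := (ψ - AddMonoidHom.id C).ker
  have hFx : ∀ c : C, c ∈ Fx ↔ ψ c = c := fun c => by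
    show ψ c - c = 0 ↔ _
    exact sub_eq_zero
  have hFxfin : Finite Fx := by
    refine (hfix.subset fun c hc => ?_).to_subtype
    exact (hFx c).mp hc
  have hcard : Nat.card Fx ≠ 0 := Nat.card_pos.ne'
  obtain ⟨e, b, hb, hcb⟩ := Nat.exists_eq_pow_mul_and_not_dvd hcard l hl.ne_one
  -- divide
  have hpow : ∀ k : ℕ, ∃ y : J, l ^ k • y = y₀ := by
    intro k
    induction k with
    | zero => exact ⟨y₀, by rw [pow_zero, one_smul]⟩
    | succ k ih =>
      obtain ⟨y, hy⟩ := ih
      obtain ⟨z, hz⟩ := hdiv y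
      exact ⟨z, by rw [pow_succ, mul_smul, hz, hy]⟩
  obtain ⟨y, hy⟩ := hpow e
  have ht : φ y - y ∈ powTors J l := ⟨e, by
    rw [smul_sub, ← map_nsmul, hy, hy₀, sub_self]⟩
  obtain ⟨t, htt⟩ := hfs ⟨φ y - y, ht⟩
  have ht1 : φ t.1 - t.1 = φ y - y := congrArg Subtype.val htt
  obtain ⟨k, hk⟩ := t.2
  -- `y - t` is fixed
  have hfixed : sp (y - t.1) ∈ Fx := by
    rw [hFx, ← hsp]
    congr 1
    rw [map_sub, sub_eq_sub_iff_sub_eq_sub]
    exact ht1.symm
  have h1 : l ^ (n + e + k) • sp (y - t.1) = 0 := by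
    rw [← map_nsmul, smul_sub, map_sub, map_nsmul, map_nsmul]
    have e1 : l ^ (n + e + k) • sp y = 0 := by
      have : l ^ (n + e + k) • sp y = l ^ k • (l ^ n • sp (l ^ e • y)) := by
        rw [map_nsmul, ← mul_smul, ← mul_smul]
        congr 1
        ring
      rw [this, hy, hn, smul_zero]
    have e2 : l ^ (n + e + k) • sp t.1 = 0 := by
      rw [pow_add, mul_smul, ← map_nsmul, hk, map_zero, smul_zero]
    rw [e1, e2, sub_zero]
  have h2 : Nat.card Fx • sp (y - t.1) = 0 := by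
    have h2 : Nat.card Fx • (⟨sp (y - t.1), hfixed⟩ : Fx) = 0 := card_nsmul_eq_zero'
    exact congrArg Subtype.val h2
  have h3 : l ^ e • sp (y - t.1) = 0 := by
    have h4 : b • (l ^ e • sp (y - t.1)) = 0 := by rw [← mul_smul, mul_comm, ← hcb, h2]
    have h5 : l ^ (n + e + k) • (l ^ e • sp (y - t.1)) = 0 := by
      rw [smul_comm, h1, smul_zero]
    have hco : Nat.Coprime (l ^ (n + e + k)) b := Nat.Coprime.pow_left _
      ((Nat.Prime.coprime_iff_not_dvd hl).mpr hb)
    have h6 : addOrderOf (l ^ e • sp (y - t.1)) = 1 := by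
      have := Nat.dvd_gcd (addOrderOf_dvd_of_nsmul_eq_zero h5)
        (addOrderOf_dvd_of_nsmul_eq_zero h4)
      rw [hco] at this
      exact Nat.dvd_one.mp this
    exact AddMonoid.addOrderOf_eq_one_iff.mp h6
  have h4 : sp (l ^ e • t.1) = sp y₀ := by
    rw [← hy, map_nsmul, map_nsmul]
    rw [map_sub, smul_sub, sub_eq_zero] at h3
    exact h3.symm
  refine ⟨l ^ e • t.1, ?_, h4⟩
  refine hinj k _ ?_ ?_
  · rw [smul_comm, smul_comm (l ^ k) (l ^ e), hk, smul_zero, smul_zero]
  · rw [map_nsmul, h4, hn]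

end Fermat.Agent.ZTS
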